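import Fermat.Agent.AbVar.Isogeny.Tangent

/-!
# Multiplication by an invertible `n` is finite and surjective

It is formally unramified, so finite, and it induces surjective endomorphisms of all jets at the
origin, so an injective endomorphism of the local ring there: the generic point is fixed.
-/

set_option autoImplicit false

noncomputable section

universe u

open CategoryTheory CategoryTheory.Limits AlgebraicGeometry NeronModelInfra GoodReductionJacobian

namespace FermatAgent.AbVar

theorem ringHom_quasiFinite_of_formallyUnramified {R S : Type u} [CommRing R] [CommRing S]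
    (f : R →+* S) (hu : f.FormallyUnramified) (hf : f.FiniteType) : f.QuasiFinite := by
  algebraize [f]
  exact ⟨fun P _ => Algebra.FormallyUnramified.finite_of_free P.ResidueField (P.Fiber S)⟩

theorem locallyQuasiFinite_of_formallyUnramified {X Y : Scheme.{u}} (f : X ⟶ Y)
    [FormallyUnramified f] [LocallyOfFiniteType f] : LocallyQuasiFinite f := by
  rw [HasRingHomProperty.iff_appLE (P := @LocallyQuasiFinite)]
  exact fun U V e => ringHom_quasiFinite_of_formallyUnramified _
    (f.formallyUnramified_appLE U.2 V.2 e) (LocallyOfFiniteType.finiteType_appLE f U.2 V.2 e)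

/-- An endomorphism of a local ring which is onto the residue field and carries the maximal ideal
to a generating set of itself is injective, if the ring is Noetherian. -/
theorem injective_of_map_maximalIdeal {R : Type u} [CommRing R] [IsLocalRing R]
    [IsNoetherianRing R] (φ : R →+* R)
    (hres : Function.Surjective ((IsLocalRing.residue R).comp φ))
    (hmax : (IsLocalRing.maximalIdeal R).map φ = IsLocalRing.maximalIdeal R) :
    Function.Injective φ := by
  set m := IsLocalRing.maximalIdeal R
  have hpow : ∀ k, (m ^ k).map φ = m ^ k := fun k => by rw [Ideal.map_pow, hmax]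
  -- onto every jet space
  have honto : ∀ k r, ∃ a, r - φ a ∈ m ^ k := by
    intro k
    induction k with
    | zero => exact fun r => ⟨0, by simp⟩
    | succ k ih =>
      intro r
      obtain ⟨a, ha⟩ := ih r
      suffices ∀ i ∈ (m ^ k).map φ, ∃ b, i - φ b ∈ m ^ (k + 1) by
        obtain ⟨b, hb⟩ := this _ ((hpow k).symm ▸ ha)
        exact ⟨a + b, by rwa [map_add, ← sub_sub]⟩
      intro i hi
      induction hi using Submodule.span_induction with
      | mem i hi =>
        obtain ⟨b, -, rfl⟩ := hi
        exact ⟨b, by rw [sub_self]; exact zero_mem _⟩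
      | zero => exact ⟨0, by simp⟩
      | add x y _ _ hx hy =>
        obtain ⟨b, hb⟩ := hx
        obtain ⟨c, hc⟩ := hy
        exact ⟨b + c, by rw [map_add, add_sub_add_comm]; exact add_mem hb hc⟩
      | smul c x hxm hx =>
        obtain ⟨b, hb⟩ := hx
        obtain ⟨d, hd⟩ := hres (IsLocalRing.residue R c)
        have hcd : c - φ d ∈ m := by
          rw [← Ideal.Quotient.eq]
          exact hd.symm
        have hxk : x ∈ m ^ k := hpow k ▸ hxm
        refine ⟨d * b, ?_⟩
        rw [smul_eq_mul, map_mul,
          show c * x - φ d * φ b = (c - φ d) * x + φ d * (x - φ b) by ring]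
        exact add_mem (by rw [pow_succ']; exact Ideal.mul_mem_mul hcd hxk)
          (Ideal.mul_mem_left _ _ hb)
  refine (injective_iff_map_eq_zero φ).2 fun x hx => ?_
  have : x ∈ ⨅ k : ℕ, m ^ k := Submodule.mem_iInf _ |>.2 fun k => ?_
  · rwa [Ideal.iInf_pow_eq_bot_of_isLocalRing m (IsLocalRing.maximalIdeal.isMaximal R).ne_top,
      Ideal.mem_bot] at this
  -- the induced endomorphism of the jets is onto, hence injective
  have hle : m ^ k ≤ (m ^ k).comap φ := Ideal.map_le_iff_le_comap.1 (hpow k).le
  set φk := Ideal.quotientMap (m ^ k) φ hle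
  have hsurj : Function.Surjective φk := fun y => by
    obtain ⟨r, rfl⟩ := Ideal.Quotient.mk_surjective y
    obtain ⟨a, ha⟩ := honto k r
    exact ⟨Ideal.Quotient.mk _ a, by
      rw [Ideal.quotientMap_mk, eq_comm, Ideal.Quotient.eq]; exact ha⟩
  have hinj : Function.Injective φk := by
    let J : ℕ →o Ideal (R ⧸ m ^ k) :=
      ⟨fun j => RingHom.ker (φk ^ j), monotone_nat_of_le_succ fun j y hy => by
        rw [RingHom.mem_ker] at hy ⊢
        rw [pow_succ', RingHom.coe_mul, Function.comp_apply, hy, map_zero]⟩
    obtain ⟨j, hj⟩ := monotone_stabilizes_iff_noetherian.2 inferInstance J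
    refine (injective_iff_map_eq_zero φk).2 fun y hy => ?_
    obtain ⟨z, rfl⟩ : ∃ z, (φk ^ j) z = y := by
      rw [RingHom.coe_pow]
      exact hsurj.iterate j y
    have hz : z ∈ J (j + 1) := by
      show (φk ^ (j + 1)) z = 0
      rw [pow_succ', RingHom.coe_mul, Function.comp_apply, hy]
    rw [← hj (j + 1) j.le_succ] at hz
    exact hz
  have h1 : φk (Ideal.Quotient.mk _ x) = 0 := by rw [Ideal.quotientMap_mk, hx, map_zero]
  exact Ideal.Quotient.eq_zero_iff_mem.1 (hinj (h1.trans (map_zero φk).symm))

namespace AV

variable {K : Type u} [Field K] (G : AV K)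

instance isProper_mulN (n : ℕ) : IsProper (G.mulN n) := by
  have : IsProper (G.mulN n ≫ G.str) := by rw [mulN_str]; infer_instance
  exact IsProper.of_comp (G.mulN n) G.str

theorem isFinite_mulN {n : ℕ} (hn : (n : K) ≠ 0) : IsFinite (G.mulN n) := by
  have := G.formallyUnramified_mulN hn
  have := locallyQuasiFinite_of_formallyUnramified (G.mulN n)
  exact (IsFinite.iff_isProper_and_locallyQuasiFinite _).2 ⟨inferInstance, inferInstance⟩

/-- The maximal ideal at an image point generates the maximal ideal. -/
theorem map_maximalIdeal_stalk {n : ℕ} (hn : (n : K) ≠ 0) (x : G.carrier) :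
    (IsLocalRing.maximalIdeal (G.carrier.presheaf.stalk (G.mulN n x))).map
        ((G.mulN n).stalkMap x).hom =
      IsLocalRing.maximalIdeal (G.carrier.presheaf.stalk x) := by
  have := G.formallyUnramified_mulN hn
  have hft := LocallyOfFiniteType.stalkMap (G.mulN n) x
  have hu := FormallyUnramified.stalkMap (G.mulN n) x
  let := ((G.mulN n).stalkMap x).hom.toAlgebra
  have : IsLocalHom (algebraMap (G.carrier.presheaf.stalk (G.mulN n x))
      (G.carrier.presheaf.stalk x)) := inferInstanceAs <| IsLocalHom ((G.mulN n).stalkMap x).hom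
  have : Algebra.EssFiniteType (G.carrier.presheaf.stalk (G.mulN n x))
      (G.carrier.presheaf.stalk x) := RingHom.essFiniteType_algebraMap.1 hft
  have : Algebra.FormallyUnramified (G.carrier.presheaf.stalk (G.mulN n x))
      (G.carrier.presheaf.stalk x) := RingHom.formallyUnramified_algebraMap.1 hu
  exact Algebra.FormallyUnramified.map_maximalIdeal

theorem mulN_zero_point (n : ℕ) (z) : G.mulN n ((0 : G.Pt K).1 z) = (0 : G.Pt K).1 z := by
  rw [← Scheme.Hom.comp_apply, ← coe_nsmul, nsmul_zero]

theorem stalkMap_injective [IsAlgClosed K] {n : ℕ} (hn : (n : K) ≠ 0) :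
    Function.Injective
      ((G.mulN n).stalkMap ((0 : G.Pt K).1 (IsLocalRing.closedPoint K))).hom := by
  set x := (0 : G.Pt K).1 (IsLocalRing.closedPoint K)
  have : IsLocallyNoetherian G.carrier := LocallyOfFiniteType.isLocallyNoetherian G.str
  have hx : IsClosed ({x} : Set G.carrier) :=
    (pointEquivClosedPoint G.str ⟨(0 : G.Pt K).1,
      (0 : G.Pt K).2.trans (by simp [base])⟩).2
  let c (y : G.carrier) : CommRingCat.of K ⟶ G.carrier.presheaf.stalk y :=
    Spec.preimage (G.carrier.fromSpecStalk y ≫ G.str)
  have hc : c (G.mulN n x) ≫ (G.mulN n).stalkMap x = c x := Spec.map_injective (by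
    rw [Spec.map_comp, Spec.map_preimage, Spec.map_preimage, ← Category.assoc,
      Scheme.SpecMap_stalkMap_fromSpecStalk, Category.assoc, mulN_str])
  have hcres : c x ≫ G.carrier.residue x = (residueFieldIsoBase G.str x hx).inv :=
    Spec.map_injective (by
      rw [Spec.map_comp, Spec.map_preimage, SpecMap_residueFieldIsoBase_inv,
        Scheme.fromSpecResidueField, Category.assoc])
  have hres : Function.Surjective ((IsLocalRing.residue (G.carrier.presheaf.stalk x)).comp
      ((G.mulN n).stalkMap x).hom) := fun r => by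
    refine ⟨(c (G.mulN n x)).hom ((residueFieldIsoBase G.str x hx).hom.hom r), ?_⟩
    show (c (G.mulN n x) ≫ (G.mulN n).stalkMap x ≫ G.carrier.residue x).hom _ = r
    rw [← Category.assoc, hc, hcres]
    exact congrArg (fun f : G.carrier.residueField x ⟶ G.carrier.residueField x => f.hom r)
      (residueFieldIsoBase G.str x hx).hom_inv_id
  have hmax := G.map_maximalIdeal_stalk hn x
  suffices ∀ (y : G.carrier) (φ : G.carrier.presheaf.stalk y →+* G.carrier.presheaf.stalk x),
      y = x → Function.Surjective ((IsLocalRing.residue _).comp φ) →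
      (IsLocalRing.maximalIdeal _).map φ = IsLocalRing.maximalIdeal _ → Function.Injective φ from
    this _ _ (G.mulN_zero_point n _) hres hmax
  rintro y φ rfl hr hm
  exact injective_of_map_maximalIdeal φ hr hm

/-- Multiplication by an invertible `n` fixes the generic point. -/
theorem mulN_genericPoint [IsAlgClosed K] [IsIntegral G.carrier] {n : ℕ} (hn : (n : K) ≠ 0) :
    G.mulN n (genericPoint G.carrier) = genericPoint G.carrier := by
  set x := (0 : G.Pt K).1 (IsLocalRing.closedPoint K)
  have hbot : ∀ y : G.carrier, G.carrier.fromSpecStalk y ⟨⊥, Ideal.isPrime_bot⟩ =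
      genericPoint G.carrier := fun y => by
    have hmem : genericPoint G.carrier ∈ Set.range (G.carrier.fromSpecStalk y) := by
      rw [Scheme.range_fromSpecStalk]; exact genericPoint_specializes y
    obtain ⟨q, hq⟩ := hmem
    refine Inseparable.eq (Specializes.antisymm ?_ (genericPoint_specializes _))
    rw [← hq]
    exact ((PrimeSpectrum.le_iff_specializes ⟨⊥, Ideal.isPrime_bot⟩ q).1 bot_le).map
      (G.carrier.fromSpecStalk y).continuous
  let b : Spec (G.carrier.presheaf.stalk x) := ⟨⊥, Ideal.isPrime_bot⟩
  have hcomap : Spec.map ((G.mulN n).stalkMap x) b =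
      (⟨⊥, Ideal.isPrime_bot⟩ : Spec (G.carrier.presheaf.stalk (G.mulN n x))) :=
    PrimeSpectrum.ext (Ideal.comap_bot_of_injective _ (G.stalkMap_injective hn))
  have hnat : (Spec.map ((G.mulN n).stalkMap x) ≫ G.carrier.fromSpecStalk (G.mulN n x)) b =
      (G.carrier.fromSpecStalk x ≫ G.mulN n) b := by
    rw [Scheme.SpecMap_stalkMap_fromSpecStalk]
  rw [Scheme.Hom.comp_apply, Scheme.Hom.comp_apply, hcomap, hbot, hbot] at hnat
  exact hnat.symm

theorem surjective_mulN [IsAlgClosed K] [IsIntegral G.carrier] {n : ℕ} (hn : (n : K) ≠ 0) :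
    Surjective (G.mulN n) := by
  refine ⟨Set.range_eq_univ.1 (Set.eq_univ_of_univ_subset ?_)⟩
  rw [← genericPoint_closure]
  exact closure_minimal (Set.singleton_subset_iff.2 ⟨_, G.mulN_genericPoint hn⟩)
    (G.mulN n).isClosedMap.isClosed_range

set_option backward.isDefEq.respectTransparency.types false

variable {L : Type u} [Field L] [Algebra K L] [IsAlgClosed L]

/-- Points with values in an algebraically closed field are divisible by an invertible `n`. -/
theorem exists_nsmul_eq [IsAlgClosed K] [IsIntegral G.carrier] {n : ℕ} (hn : (n : K) ≠ 0)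
    (x : G.Pt L) : ∃ y : G.Pt L, n • y = x := by
  have := G.isFinite_mulN hn
  have := G.surjective_mulN hn
  let p := pullback.snd (G.mulN n) x.1
  have : Surjective p := MorphismProperty.pullback_snd _ _ ‹_›
  have : IsFinite p := MorphismProperty.pullback_snd _ _ ‹_›
  obtain ⟨w, -⟩ := p.surjective (IsLocalRing.closedPoint L)
  have : Nonempty ↥(pullback (G.mulN n) x.1) := ⟨w⟩
  have : CompactSpace ↥(pullback (G.mulN n) x.1) := QuasiCompact.compactSpace_of_compactSpace p
  obtain ⟨z, -, hz⟩ :=
    (isClosed_univ (X := ↥(pullback (G.mulN n) x.1))).exists_closed_singleton Set.univ_nonempty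
  refine ⟨⟨pointOfClosedPoint p z hz ≫ pullback.fst _ _, ?_⟩, pt_ext ?_⟩
  · calc (pointOfClosedPoint p z hz ≫ pullback.fst _ _) ≫ G.str
        = pointOfClosedPoint p z hz ≫ pullback.fst (G.mulN n) x.1 ≫ G.mulN n ≫ G.str := by
          rw [mulN_str, Category.assoc]
      _ = (pointOfClosedPoint p z hz ≫ p) ≫ x.1 ≫ G.str := by
          simp only [p, Category.assoc, pullback.condition_assoc]
      _ = base K L := by
          rw [pointOfClosedPoint_comp, Category.id_comp]; exact x.2
  · rw [coe_nsmul, Category.assoc, pullback.condition, ← Category.assoc, pointOfClosedPoint_comp,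
      Category.id_comp]

/-- There are finitely many `n`-torsion points. -/
theorem finite_torsion {n : ℕ} (hn : (n : K) ≠ 0) : Finite {x : G.Pt L // n • x = 0} := by
  have := G.isFinite_mulN hn
  let p := pullback.snd (G.mulN n) (0 : G.Pt L).1
  have : IsFinite p := MorphismProperty.pullback_snd _ _ ‹_›
  have : Finite ↥(pullback (G.mulN n) (0 : G.Pt L).1) := Set.finite_univ_iff.1
    ((p.finite_preimage_singleton (IsLocalRing.closedPoint L)).subset
      fun _ _ => Subsingleton.elim (α := Spec (CommRingCat.of L)) _ _)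
  have : Finite {s : Spec (CommRingCat.of L) ⟶ pullback (G.mulN n) (0 : G.Pt L).1 // s ≫ p = 𝟙 _} :=
    Finite.of_equiv _ (pointEquivClosedPoint p).symm
  refine Finite.of_injective (β := {s // s ≫ p = 𝟙 _})
    (fun x => ⟨pullback.lift x.1.1 (𝟙 _) (by rw [← coe_nsmul, x.2, Category.id_comp]),
      pullback.lift_snd _ _ _⟩) fun x y h => ?_
  have := congrArg (fun s => s.1 ≫ pullback.fst (G.mulN n) (0 : G.Pt L).1) h
  simp only [pullback.lift_fst] at this
  exact Subtype.ext (pt_ext this)

theorem natCard_torsion_pow [IsAlgClosed K] [IsIntegral G.carrier] {n : ℕ} (hn : (n : K) ≠ 0)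
    (k : ℕ) : Nat.card {x : G.Pt L // n ^ k • x = 0} = Nat.card {x : G.Pt L // n • x = 0} ^ k := by
  induction k with
  | zero =>
    rw [pow_zero, pow_zero, Nat.card_eq_one_iff_unique]
    exact ⟨⟨fun a b => Subtype.ext (((one_nsmul a.1).symm.trans a.2).trans
      ((one_nsmul b.1).symm.trans b.2).symm)⟩, ⟨⟨0, nsmul_zero _⟩⟩⟩
  | succ k ih =>
    let f : (nsmulAddMonoidHom (α := G.Pt L) (n ^ (k + 1))).ker →+
        (nsmulAddMonoidHom (α := G.Pt L) (n ^ k)).ker :=
      ((nsmulAddMonoidHom n).comp (AddSubgroup.subtype _)).codRestrict _ fun x => by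
        show n ^ k • n • x.1 = 0
        rw [← mul_nsmul', ← pow_succ]; exact x.2
    have hf : Function.Surjective f := fun y => by
      obtain ⟨z, hz⟩ := G.exists_nsmul_eq hn y.1
      exact ⟨⟨z, show n ^ (k + 1) • z = 0 by rw [pow_succ, mul_nsmul', hz]; exact y.2⟩,
        Subtype.ext hz⟩
    let e : f.ker ≃ {x : G.Pt L // n • x = 0} :=
      { toFun := fun x => ⟨x.1.1, congrArg Subtype.val x.2⟩
        invFun := fun x => ⟨⟨x.1, show n ^ (k + 1) • x.1 = 0 by
          rw [pow_succ, mul_nsmul', x.2, nsmul_zero]⟩, Subtype.ext x.2⟩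
        left_inv := fun _ => rfl
        right_inv := fun _ => rfl }
    have h := f.ker.card_eq_card_quotient_mul_card_addSubgroup
    rw [Nat.card_congr (QuotientAddGroup.quotientKerEquivOfSurjective f hf).toEquiv,
      Nat.card_congr e] at h
    rw [pow_succ (Nat.card _), ← ih]
    exact h

end AV

end FermatAgent.AbVar
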