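import Fermat.Agent.AbVar.Basic

/-!
# Multiplication by `n` is formally unramified when `n` is invertible

Points over `R` which vanish modulo an ideal of square zero are given by algebra maps on an affine
neighbourhood of the origin, and the group law is addition of these maps up to the origin's.
-/

set_option autoImplicit false
set_option linter.style.haveILetI false

noncomputable section

universe u

open CategoryTheory CategoryTheory.Limits AlgebraicGeometry NeronModelInfra GoodReductionJacobian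

namespace FermatAgent.AbVar

namespace AV

variable {K : Type u} [Field K] (G : AV K)

/-- Multiplication by `n` on the abelian variety. -/
abbrev mulN (n : ℕ) : G.carrier ⟶ G.carrier :=
  G.law.schemeNsmul n

theorem mulN_str (n : ℕ) : G.mulN n ≫ G.str = G.str :=
  G.law.schemeNsmul_over n

variable {R : Type u} [CommRing R] [Algebra K R]

theorem coe_nsmul (n : ℕ) (x : G.Pt R) : (n • x).1 = x.1 ≫ G.mulN n := by
  have h := G.law.nsmul_natural G.str (base K R) x.1 x.2 n RelativeGroupLaw.idPoint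
  rw [show schemeHomOverComp x.1 x.2 (RelativeGroupLaw.idPoint (f := G.str)) = x from
    pt_ext (Category.comp_id _)] at h
  rw [nsmul_eq, ← h]
  rfl

variable {U : G.carrier.Opens} (hU : IsAffineOpen U)

/-- An algebra structure on the sections over an affine open. -/
@[reducible]
def algebraSections : Algebra K Γ(G.carrier, U) :=
  (Spec.preimage (hU.fromSpec ≫ G.str)).hom.toAlgebra

theorem base_sections :
    letI := G.algebraSections hU
    base K Γ(G.carrier, U) = hU.fromSpec ≫ G.str :=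
  Spec.map_preimage _

/-- The point given by an algebra map on an affine open. -/
def ptOf (φ : letI := G.algebraSections hU; Γ(G.carrier, U) →ₐ[K] R) : G.Pt R :=
  letI := G.algebraSections hU
  ⟨Spec.map (CommRingCat.ofHom φ.toRingHom) ≫ hU.fromSpec, by
    rw [Category.assoc, ← G.base_sections hU]; exact base_comp φ⟩

theorem map_ptOf {S : Type u} [CommRing S] [Algebra K S] (h : R →ₐ[K] S)
    (φ : letI := G.algebraSections hU; Γ(G.carrier, U) →ₐ[K] R) :
    letI := G.algebraSections hU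
    map h (G.ptOf hU φ) = G.ptOf hU (h.comp φ) :=
  letI := G.algebraSections hU
  pt_ext (by
    rw [map_coe, ptOf, ptOf, ← Category.assoc, ← Spec.map_comp, ← CommRingCat.ofHom_comp]
    rfl)

theorem ptOf_injective : Function.Injective (G.ptOf hU (R := R)) := by
  letI := G.algebraSections hU
  intro φ ψ h
  have h1 := congrArg Subtype.val h
  rw [ptOf, ptOf, cancel_mono, Spec.map_inj] at h1
  exact AlgHom.ext fun a => ConcreteCategory.congr_hom h1 a

theorem exists_eq_ptOf {x : G.Pt R} (hx : ∀ z, x.1 z ∈ U) : ∃ φ, x = G.ptOf hU φ := by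
  letI := G.algebraSections hU
  have hr : Set.range x.1 ⊆ Set.range hU.fromSpec := by
    rw [hU.range_fromSpec]; rintro _ ⟨z, rfl⟩; exact hx z
  obtain ⟨φ, hφ⟩ := Spec.map_surjective (IsOpenImmersion.lift hU.fromSpec x.1 hr)
  have hfac : Spec.map φ ≫ hU.fromSpec = x.1 := by rw [hφ, IsOpenImmersion.lift_fac]
  have hc : Spec.map φ ≫ base K Γ(G.carrier, U) = base K R := by
    rw [G.base_sections hU, ← Category.assoc, hfac]; exact x.2
  rw [base, base, ← Spec.map_comp, Spec.map_inj] at hc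
  exact ⟨{ φ.hom with commutes' := fun c => ConcreteCategory.congr_hom hc c }, pt_ext hfac.symm⟩

/-- A point vanishing modulo nilpotents lies in every open containing the origin. -/
theorem mem_of_map_eq_zero (h0 : ∀ z, (0 : G.Pt K).1 z ∈ U) {S : Type u} [CommRing S]
    [Algebra K S] (π : R →ₐ[K] S) (hπ : Function.Surjective π)
    (hker : ∀ r, π r = 0 → IsNilpotent r) {x : G.Pt R} (hx : map π x = 0) (z) : x.1 z ∈ U := by
  obtain ⟨w, rfl⟩ : ∃ w, Spec.map (CommRingCat.ofHom π.toRingHom) w = z := by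
    have hr : z ∈ Set.range (PrimeSpectrum.comap π.toRingHom) := by
      rw [range_comap_of_surjective _ π.toRingHom hπ]
      exact fun r hr => @nilradical_le_prime R _ z.asIdeal z.isPrime r (mem_nilradical.2 (hker r hr))
    exact hr
  rw [← Scheme.Hom.comp_apply, ← map_coe, hx, ← _root_.map_zero (map (G := G) (Algebra.ofId K S)),
    map_coe, Scheme.Hom.comp_apply]
  exact h0 _

/-- Triples congruent modulo `I`. -/
def congrTriples (I : Ideal R) : Subalgebra K (R × R × R) where
  carrier := {t | t.2.1 - t.1 ∈ I ∧ t.2.2 - t.1 ∈ I}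
  one_mem' := by simp
  zero_mem' := by simp
  add_mem' {a b} ha hb := by
    refine ⟨?_, ?_⟩
    · show a.2.1 + b.2.1 - (a.1 + b.1) ∈ I
      rw [add_sub_add_comm]; exact add_mem ha.1 hb.1
    · show a.2.2 + b.2.2 - (a.1 + b.1) ∈ I
      rw [add_sub_add_comm]; exact add_mem ha.2 hb.2
  mul_mem' {a b} ha hb := by
    refine ⟨?_, ?_⟩
    · show a.2.1 * b.2.1 - a.1 * b.1 ∈ I
      rw [show a.2.1 * b.2.1 - a.1 * b.1 = a.2.1 * (b.2.1 - b.1) + b.1 * (a.2.1 - a.1) by ring]
      exact add_mem (Ideal.mul_mem_left _ _ hb.1) (Ideal.mul_mem_left _ _ ha.1)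
    · show a.2.2 * b.2.2 - a.1 * b.1 ∈ I
      rw [show a.2.2 * b.2.2 - a.1 * b.1 = a.2.2 * (b.2.2 - b.1) + b.1 * (a.2.2 - a.1) by ring]
      exact add_mem (Ideal.mul_mem_left _ _ hb.2) (Ideal.mul_mem_left _ _ ha.2)
  algebraMap_mem' c := by simp [Prod.algebraMap_apply]

variable {I : Ideal R}

theorem mul_eq_zero_of_sq (hI : I ^ 2 = ⊥) {a b : R} (ha : a ∈ I) (hb : b ∈ I) : a * b = 0 := by
  have h : a * b ∈ I ^ 2 := by rw [pow_two]; exact Ideal.mul_mem_mul ha hb
  rwa [hI, Ideal.mem_bot] at h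

/-- Adding the two increments of a congruent triple. -/
def addIncr (hI : I ^ 2 = ⊥) : congrTriples (K := K) I →ₐ[K] R where
  toFun t := t.1.2.1 + t.1.2.2 - t.1.1
  map_one' := by simp
  map_zero' := by simp
  map_add' a b := by
    show a.1.2.1 + b.1.2.1 + (a.1.2.2 + b.1.2.2) - (a.1.1 + b.1.1) = _
    ring
  map_mul' a b := by
    show a.1.2.1 * b.1.2.1 + a.1.2.2 * b.1.2.2 - a.1.1 * b.1.1 = _
    linear_combination (-1 : R) * mul_eq_zero_of_sq hI a.2.1 b.2.2 -
      mul_eq_zero_of_sq hI a.2.2 b.2.1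
  commutes' c := by
    show algebraMap K R c + algebraMap K R c - algebraMap K R c = _
    ring


theorem ptOf_add (h0 : ∀ z, (0 : G.Pt K).1 z ∈ U) (hI : I ^ 2 = ⊥)
    (e φ ψ : letI := G.algebraSections hU; Γ(G.carrier, U) →ₐ[K] R) (he : G.ptOf hU e = 0)
    (hφ : ∀ a, φ a - e a ∈ I) (hψ : ∀ a, ψ a - e a ∈ I) :
    ∃ χ, G.ptOf hU φ + G.ptOf hU ψ = G.ptOf hU χ ∧ ∀ a, χ a = φ a + ψ a - e a := by
  letI := G.algebraSections hU
  set T := congrTriples (K := K) I
  let p₀ : T →ₐ[K] R := (AlgHom.fst K R (R × R)).comp T.val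
  let p₁ : T →ₐ[K] R := ((AlgHom.fst K R R).comp (AlgHom.snd K R (R × R))).comp T.val
  let p₂ : T →ₐ[K] R := ((AlgHom.snd K R R).comp (AlgHom.snd K R (R × R))).comp T.val
  let X : Γ(G.carrier, U) →ₐ[K] T := (e.prod (φ.prod e)).codRestrict T
    fun a => ⟨hφ a, by show e a - e a ∈ I; simp⟩
  let Y : Γ(G.carrier, U) →ₐ[K] T := (e.prod (e.prod ψ)).codRestrict T
    fun a => ⟨by show e a - e a ∈ I; simp, hψ a⟩
  set Z := G.ptOf hU X + G.ptOf hU Y with hZdef
  have h₀ : map p₀ Z = G.ptOf hU e := by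
    rw [hZdef, map_add, map_ptOf, map_ptOf,
      show p₀.comp X = e from AlgHom.ext fun a => rfl,
      show p₀.comp Y = e from AlgHom.ext fun a => rfl, he, add_zero]
  have h₁ : map p₁ Z = G.ptOf hU φ := by
    rw [hZdef, map_add, map_ptOf, map_ptOf,
      show p₁.comp X = φ from AlgHom.ext fun a => rfl,
      show p₁.comp Y = e from AlgHom.ext fun a => rfl, he, add_zero]
  have h₂ : map p₂ Z = G.ptOf hU ψ := by
    rw [hZdef, map_add, map_ptOf, map_ptOf,
      show p₂.comp X = e from AlgHom.ext fun a => rfl,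
      show p₂.comp Y = ψ from AlgHom.ext fun a => rfl, he, zero_add]
  obtain ⟨ζ, hζ⟩ := G.exists_eq_ptOf hU (G.mem_of_map_eq_zero h0
    ((Ideal.Quotient.mkₐ K I).comp p₀)
    (fun r => by
      obtain ⟨r, rfl⟩ := Ideal.Quotient.mk_surjective r
      exact ⟨⟨(r, r, r), by simp, by simp⟩, rfl⟩)
    (fun t ht => by
      have h1 : t.1.1 ∈ I := Ideal.Quotient.eq_zero_iff_mem.1 ht
      have h2 : t.1.2.1 ∈ I := by simpa using add_mem t.2.1 h1
      have h3 : t.1.2.2 ∈ I := by simpa using add_mem t.2.2 h1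
      refine ⟨2, Subtype.ext ?_⟩
      rw [pow_two]
      exact Prod.ext (mul_eq_zero_of_sq hI h1 h1)
        (Prod.ext (mul_eq_zero_of_sq hI h2 h2) (mul_eq_zero_of_sq hI h3 h3)))
    (x := Z) (by rw [← map_map, h₀, he, _root_.map_zero]))
  rw [hζ, map_ptOf] at h₀ h₁ h₂
  refine ⟨(addIncr hI).comp ζ, ?_, fun a => ?_⟩
  · rw [← map_ptOf, ← hζ, hZdef, map_add, map_ptOf, map_ptOf]
    congr 1
    · congr 1; exact AlgHom.ext fun a => (add_sub_cancel_right (φ a) (e a)).symm
    · congr 1; exact AlgHom.ext fun a => (add_sub_cancel_left (e a) (ψ a)).symm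
  · have e₀ := AlgHom.congr_fun (G.ptOf_injective hU h₀) a
    have e₁ := AlgHom.congr_fun (G.ptOf_injective hU h₁) a
    have e₂ := AlgHom.congr_fun (G.ptOf_injective hU h₂) a
    show (ζ a).1.2.1 + (ζ a).1.2.2 - (ζ a).1.1 = _
    rw [← e₀, ← e₁, ← e₂]
    rfl

/-- Points vanishing modulo a square-zero ideal have no `n`-torsion. -/
theorem eq_zero_of_nsmul_eq_zero {n : ℕ} (hn : (n : K) ≠ 0) {S : Type u} [CommRing S]
    [Algebra K S] (π : R →ₐ[K] S) (hπ : Function.Surjective π)
    (hsq : RingHom.ker π.toRingHom ^ 2 = ⊥) {x : G.Pt R} (hx : map π x = 0) (hnx : n • x = 0) :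
    x = 0 := by
  set I := RingHom.ker π.toRingHom
  obtain ⟨_, ⟨U, hU, rfl⟩, h0U, -⟩ := G.carrier.isBasis_affineOpens.exists_subset_of_mem_open
    (Set.mem_univ ((0 : G.Pt K).1 (IsLocalRing.closedPoint K))) isOpen_univ
  replace hU : IsAffineOpen U := hU
  have h0 : ∀ z, (0 : G.Pt K).1 z ∈ U := fun z => by
    rw [Subsingleton.elim z (IsLocalRing.closedPoint K)]; exact h0U
  letI := G.algebraSections hU
  have hker : ∀ r, π r = 0 → IsNilpotent r := fun r hr =>
    ⟨2, by rw [pow_two]; exact mul_eq_zero_of_sq hsq hr hr⟩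
  obtain ⟨e, he⟩ := G.exists_eq_ptOf hU
    (G.mem_of_map_eq_zero h0 π hπ hker (_root_.map_zero (map (G := G) π)))
  obtain ⟨φ, hφ⟩ := G.exists_eq_ptOf hU (G.mem_of_map_eq_zero h0 π hπ hker hx)
  have hπe : π.comp φ = π.comp e := G.ptOf_injective hU (by
    rw [← map_ptOf, ← map_ptOf, ← hφ, ← he, hx, _root_.map_zero])
  have hφI : ∀ a, φ a - e a ∈ I := fun a => by
    show π (φ a - e a) = 0
    rw [map_sub, sub_eq_zero]
    exact AlgHom.congr_fun hπe a
  have key : ∀ m : ℕ, ∃ χ, m • G.ptOf hU φ = G.ptOf hU χ ∧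
      ∀ a, χ a - e a = m • (φ a - e a) := by
    intro m
    induction m with
    | zero => exact ⟨e, (zero_nsmul _).trans he, fun a => by rw [sub_self, zero_nsmul]⟩
    | succ m ih =>
      obtain ⟨χ, hχ, hχe⟩ := ih
      obtain ⟨ω, hω, hωe⟩ := G.ptOf_add hU h0 hsq e χ φ he.symm
        (fun a => by rw [hχe]; exact nsmul_mem (hφI a) m) hφI
      exact ⟨ω, by rw [succ_nsmul, hχ, hω], fun a => by rw [hωe, succ_nsmul, ← hχe]; ring⟩
  obtain ⟨χ, hχ, hχe⟩ := key n
  rw [← hφ, hnx, he] at hχ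
  rw [hφ, he]
  congr 1
  refine AlgHom.ext fun a => sub_eq_zero.1 ?_
  have h1 := hχe a
  rw [← G.ptOf_injective hU hχ, sub_self, nsmul_eq_mul] at h1
  have h2 := congrArg (algebraMap K R (n : K)⁻¹ * ·) h1
  simp only [mul_zero, ← mul_assoc, ← map_natCast (algebraMap K R) n, ← _root_.map_mul,
    inv_mul_cancel₀ hn, _root_.map_one, one_mul] at h2
  exact h2.symm

/-- Multiplication by an invertible `n` is formally unramified. -/
theorem formallyUnramified_mulN {n : ℕ} (hn : (n : K) ≠ 0) : FormallyUnramified (G.mulN n) := by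
  refine FormallyUnramified.of_hom_ext _ fun R S φ hφ hsq g₁ g₂ hS hn12 => ?_
  letI : Algebra K R := (Spec.preimage (g₁ ≫ G.str)).hom.toAlgebra
  letI : Algebra K S := (φ.hom.comp (algebraMap K R)).toAlgebra
  let π : R →ₐ[K] S := { φ.hom with commutes' := fun _ => rfl }
  have hg₂ : g₂ ≫ G.str = g₁ ≫ G.str := by
    have := congrArg (· ≫ G.str) hn12
    simpa only [Category.assoc, mulN_str] using this.symm
  have hb : g₁ ≫ G.str = base K R := (Spec.map_preimage _).symm
  let x : G.Pt R := ⟨g₁, hb⟩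
  let y : G.Pt R := ⟨g₂, hg₂.trans hb⟩
  have hxy : x - y = 0 := G.eq_zero_of_nsmul_eq_zero hn π hφ hsq
    (by rw [map_sub, sub_eq_zero]; exact pt_ext hS)
    (by
      rw [nsmul_sub, sub_eq_zero]
      exact pt_ext (by rw [coe_nsmul, coe_nsmul]; exact hn12))
  have hxy' : x = y := (sub_eq_zero (G := G.Pt R)).1 hxy
  exact congrArg Subtype.val hxy'

end AV

end FermatAgent.AbVar
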